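import Fermat.Agent.S52.RG.Hom
import Fermat.Agent.S52.FB.Main

/-!
# S52 / RG, part 4: the congruence `#E_{t₀}(𝔽_ℓ) ≡ #E_{t₁}(𝔽_ℓ) mod 5`

for a family `E_τ : y² = x³ + A(τ) x + B(τ)`, `A B : 𝔽_ℓ[τ]`, which has a nonzero `5`-torsion section
over `𝔽̄_ℓ(τ)`.
-/

set_option autoImplicit false
set_option linter.unusedSectionVars false

namespace Fermat.Agent.S52

open Polynomial WeierstrassCurve.Affine

section
variable (ℓ : ℕ) [Fact ℓ.Prime] {kb : Type*} [Field kb] [Algebra (ZMod ℓ) kb]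

/-- base change of a polynomial to `kb` -/
noncomputable abbrev RG_bc (kb : Type*) [Field kb] [Algebra (ZMod ℓ) kb] (A : (ZMod ℓ)[X]) : kb[X] :=
  A.map (algebraMap (ZMod ℓ) kb)

/-- coefficientwise Frobenius on `kb[X]` -/
noncomputable def RG_frobPoly : kb[X] →+* kb[X] := Polynomial.mapRingHom (frobHom ℓ)

lemma RG_frobPoly_injective : Function.Injective (RG_frobPoly ℓ (kb := kb)) :=
  Polynomial.map_injective _ (frobHom ℓ : kb →+* kb).injective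

lemma RG_frobPoly_bc (A : (ZMod ℓ)[X]) : RG_frobPoly ℓ (RG_bc ℓ kb A) = RG_bc ℓ kb A := by
  rw [RG_frobPoly, coe_mapRingHom, RG_bc, Polynomial.map_map]
  congr 1
  exact Subsingleton.elim _ _

lemma RG_eval_frobPoly (f : kb[X]) (t : ZMod ℓ) :
    (RG_frobPoly ℓ f).eval (algebraMap (ZMod ℓ) kb t) = (f.eval (algebraMap (ZMod ℓ) kb t)) ^ ℓ := by
  have h : algebraMap (ZMod ℓ) kb t = frobHom ℓ (algebraMap (ZMod ℓ) kb t) := by
    rw [frobHom_apply, algebraMap_zmod_pow]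
  rw [RG_frobPoly, coe_mapRingHom, eval_map]
  conv_lhs => rw [h]
  rw [eval₂_at_apply, frobHom_apply]

lemma RG_eval_bc (A : (ZMod ℓ)[X]) (t : ZMod ℓ) :
    Polynomial.evalRingHom (algebraMap (ZMod ℓ) kb t) (RG_bc ℓ kb A)
      = algebraMap (ZMod ℓ) kb (A.eval t) := by
  rw [coe_evalRingHom, RG_bc, eval_map, eval₂_at_apply]

/-- coefficientwise Frobenius on `kb(X)` -/
noncomputable def RG_sigma : RatFunc kb →+* RatFunc kb :=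
  IsFractionRing.lift (A := kb[X]) (K := RatFunc kb)
    (g := (algebraMap kb[X] (RatFunc kb)).comp (RG_frobPoly ℓ))
    ((RatFunc.algebraMap_injective kb).comp (RG_frobPoly_injective ℓ))

lemma RG_sigma_algebraMap (f : kb[X]) :
    RG_sigma ℓ (algebraMap kb[X] (RatFunc kb) f) = algebraMap kb[X] (RatFunc kb) (RG_frobPoly ℓ f) :=
  IsFractionRing.lift_algebraMap _ f

lemma RG_sigma_bc (A : (ZMod ℓ)[X]) :
    RG_sigma ℓ (algebraMap kb[X] (RatFunc kb) (RG_bc ℓ kb A))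
      = algebraMap kb[X] (RatFunc kb) (RG_bc ℓ kb A) := by
  rw [RG_sigma_algebraMap, RG_frobPoly_bc]

variable [DecidableEq (RatFunc kb)] [DecidableEq kb] (A B : (ZMod ℓ)[X])

/-- the action of the coefficientwise Frobenius on sections -/
noncomputable def RG_Tσ : (RG_EK (RatFunc kb) (RG_bc ℓ kb A) (RG_bc ℓ kb B)).Point →+
    (RG_EK (RatFunc kb) (RG_bc ℓ kb A) (RG_bc ℓ kb B)).Point :=
  mapShort' (RG_sigma ℓ) (RG_sigma_bc ℓ A) (RG_sigma_bc ℓ B)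

lemma RG_Tσ_mem {P : (RG_EK (RatFunc kb) (RG_bc ℓ kb A) (RG_bc ℓ kb B)).Point}
    (hP : P ∈ RG_T5 (RatFunc kb) (RG_bc ℓ kb A) (RG_bc ℓ kb B)) :
    RG_Tσ ℓ A B P ∈ RG_T5 (RatFunc kb) (RG_bc ℓ kb A) (RG_bc ℓ kb B) := by
  rw [RG_mem_T5] at hP ⊢
  rw [← map_nsmul, hP, map_zero]

variable {A B}

/-- evaluation at an `𝔽_ℓ`-point commutes with Frobenius -/
lemma RG_evPt_Tσ (t : ZMod ℓ)
    (hΔ : 4 * (algebraMap (ZMod ℓ) kb (A.eval t)) ^ 3 + 27 * (algebraMap (ZMod ℓ) kb (B.eval t)) ^ 2 ≠ 0)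
    (h2 : (2 : kb) ≠ 0) {P : (RG_EK (RatFunc kb) (RG_bc ℓ kb A) (RG_bc ℓ kb B)).Point}
    (hP : RG_IsInt P) :
    RG_evPt (Polynomial.evalRingHom (algebraMap (ZMod ℓ) kb t)) (RG_eval_bc ℓ A t) (RG_eval_bc ℓ B t)
        hΔ h2 (RG_Tσ ℓ A B P)
      = frobPt ℓ (A.eval t) (B.eval t)
        (RG_evPt (Polynomial.evalRingHom (algebraMap (ZMod ℓ) kb t)) (RG_eval_bc ℓ A t)
          (RG_eval_bc ℓ B t) hΔ h2 P) := by
  rcases P with _ | ⟨x, y, h⟩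
  · change RG_evPt _ _ _ hΔ h2 (RG_Tσ ℓ A B 0) = frobPt ℓ _ _ (RG_evPt _ _ _ hΔ h2 0)
    rw [map_zero, RG_evPt_zero, map_zero]
  · obtain ⟨p, q, rfl, rfl⟩ := hP
    rw [RG_Tσ, mapShort'_some, RG_evPt_some]
    obtain ⟨h', e⟩ := RG_evPt_of_eq (Polynomial.evalRingHom (algebraMap (ZMod ℓ) kb t))
      (RG_eval_bc ℓ A t) (RG_eval_bc ℓ B t) hΔ h2
      (short_map_nonsingular' (RG_sigma ℓ) (RG_sigma_bc ℓ A) (RG_sigma_bc ℓ B) h)
      (RG_sigma_algebraMap ℓ p).symm (RG_sigma_algebraMap ℓ q).symm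
    rw [e]
    unfold mkPt
    rw [Main_frobPt_some]
    exact RG_some_congr _ _ (RG_eval_frobPoly ℓ p t) (RG_eval_frobPoly ℓ q t)

end

lemma RG_five_dvd_of_zsmul {G : Type*} [AddCommGroup G] {Q : G} (hQ0 : Q ≠ 0) (hQ5 : 5 • Q = 0)
    {m : ℤ} (hm : m • Q = 0) : (5 : ℤ) ∣ m := by
  haveI : Fact (Nat.Prime 5) := ⟨by norm_num⟩
  have h5 : addOrderOf Q = 5 := addOrderOf_eq_prime hQ5 hQ0
  have := addOrderOf_dvd_iff_zsmul_eq_zero.2 hm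
  rw [h5] at this
  exact_mod_cast this

/-- **The congruence.**  If the family `y² = x³ + A(τ) x + B(τ)` over `𝔽_ℓ[τ]` has a nonzero
`5`-torsion section over `kb(τ)` (`kb` algebraic over `𝔽_ℓ`), then all its good fibres over
`𝔽_ℓ`-points have the same number of points modulo `5`. -/
theorem RG_five_dvd_card_sub (ℓ : ℕ) [Fact ℓ.Prime] (hℓ : 5 < ℓ) (A B : (ZMod ℓ)[X])
    {kb : Type*} [Field kb] [Algebra (ZMod ℓ) kb] [Algebra.IsAlgebraic (ZMod ℓ) kb]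
    [DecidableEq (RatFunc kb)]
    (P : (RG_EK (RatFunc kb) (RG_bc ℓ kb A) (RG_bc ℓ kb B)).Point) (hP0 : P ≠ 0) (hP5 : 5 • P = 0)
    (t₀ t₁ : ZMod ℓ) (h₀ : 4 * (A.eval t₀) ^ 3 + 27 * (B.eval t₀) ^ 2 ≠ 0)
    (h₁ : 4 * (A.eval t₁) ^ 3 + 27 * (B.eval t₁) ^ 2 ≠ 0) :
    (5 : ℤ) ∣ (Nat.card (short (A.eval t₀) (B.eval t₀)).Point : ℤ)
      - (Nat.card (short (A.eval t₁) (B.eval t₁)).Point : ℤ) := by
  classical
  have hℓ5 : 5 ≤ ℓ := hℓ.le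
  have hmapΔ : ∀ t : ZMod ℓ, 4 * (A.eval t) ^ 3 + 27 * (B.eval t) ^ 2 ≠ 0 →
      4 * (algebraMap (ZMod ℓ) kb (A.eval t)) ^ 3
        + 27 * (algebraMap (ZMod ℓ) kb (B.eval t)) ^ 2 ≠ 0 := by
    intro t ht
    have : algebraMap (ZMod ℓ) kb (4 * (A.eval t) ^ 3 + 27 * (B.eval t) ^ 2) ≠ 0 := by
      rwa [Ne, map_eq_zero]
    rwa [map_add, map_mul, map_mul, map_pow, map_pow, map_ofNat, map_ofNat] at this
  have h2 : (2 : kb) ≠ 0 := by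
    have : algebraMap (ZMod ℓ) kb 2 ≠ 0 := by
      rw [Ne, map_eq_zero]
      exact Count_two_ne_zero ℓ hℓ5
    rwa [map_ofNat] at this
  have h5 : (5 : kb) ≠ 0 := by
    have h5' : (5 : ZMod ℓ) ≠ 0 := by
      intro h
      have : ((5 : ℕ) : ZMod ℓ) = 0 := by exact_mod_cast h
      rw [ZMod.natCast_eq_zero_iff] at this
      exact absurd (Nat.le_of_dvd (by norm_num) this) (by omega)
    have : algebraMap (ZMod ℓ) kb 5 ≠ 0 := by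
      rwa [Ne, map_eq_zero]
    rwa [map_ofNat] at this
  have hu : (C (5⁻¹ : kb) : kb[X]) * 5 = 1 := by
    have : (5 : kb[X]) = C (5 : kb) := (map_ofNat C 5).symm
    rw [this, ← C_mul, inv_mul_cancel₀ h5, C_1]
  -- the three sections
  set T5 := RG_T5 (RatFunc kb) (RG_bc ℓ kb A) (RG_bc ℓ kb B) with hT5
  let S : T5 := ⟨P, hP5⟩
  let S₁ : T5 := ⟨RG_Tσ ℓ A B P, RG_Tσ_mem ℓ A B S.2⟩
  let S₂ : T5 := ⟨RG_Tσ ℓ A B (RG_Tσ ℓ A B P), RG_Tσ_mem ℓ A B S₁.2⟩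
  -- evaluation
  have hint : ∀ Q : T5, RG_IsInt (Q : (RG_EK (RatFunc kb) (RG_bc ℓ kb A) (RG_bc ℓ kb B)).Point) :=
    fun Q => RG_isInt_of_mem_T5 (Polynomial.evalRingHom (algebraMap (ZMod ℓ) kb t₀))
      (RG_eval_bc ℓ A t₀) (RG_eval_bc ℓ B t₀) (hmapΔ t₀ h₀) h2 hu Q.2
  have key : ∀ (t : ZMod ℓ) (ht : 4 * (A.eval t) ^ 3 + 27 * (B.eval t) ^ 2 ≠ 0) (c : ℤ),
      RG_evHom (Polynomial.evalRingHom (algebraMap (ZMod ℓ) kb t)) (RG_eval_bc ℓ A t)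
        (RG_eval_bc ℓ B t) (hmapΔ t ht) h2 hu (S₂ - c • S₁ + (ℓ : ℤ) • S)
      = frobPt ℓ (A.eval t) (B.eval t) (frobPt ℓ (A.eval t) (B.eval t)
          (RG_evPt (Polynomial.evalRingHom (algebraMap (ZMod ℓ) kb t)) (RG_eval_bc ℓ A t)
            (RG_eval_bc ℓ B t) (hmapΔ t ht) h2 P))
        - c • frobPt ℓ (A.eval t) (B.eval t)
          (RG_evPt (Polynomial.evalRingHom (algebraMap (ZMod ℓ) kb t)) (RG_eval_bc ℓ A t)
            (RG_eval_bc ℓ B t) (hmapΔ t ht) h2 P)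
        + (ℓ : ℤ) • (RG_evPt (Polynomial.evalRingHom (algebraMap (ZMod ℓ) kb t)) (RG_eval_bc ℓ A t)
            (RG_eval_bc ℓ B t) (hmapΔ t ht) h2 P) := by
    intro t ht c
    rw [map_add, map_sub, map_zsmul, map_zsmul, RG_evHom_apply, RG_evHom_apply, RG_evHom_apply]
    change RG_evPt _ _ _ _ h2 (RG_Tσ ℓ A B (RG_Tσ ℓ A B P)) - c • RG_evPt _ _ _ _ h2 (RG_Tσ ℓ A B P)
      + (ℓ : ℤ) • RG_evPt _ _ _ _ h2 P = _
    rw [RG_evPt_Tσ ℓ t (hmapΔ t ht) h2 (hint S₁), RG_evPt_Tσ ℓ t (hmapΔ t ht) h2 (hint S)]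
  set n₀ : ℤ := (Nat.card (short (A.eval t₀) (B.eval t₀)).Point : ℤ) with hn₀
  set n₁ : ℤ := (Nat.card (short (A.eval t₁) (B.eval t₁)).Point : ℤ) with hn₁
  set R : T5 := S₂ - ((ℓ : ℤ) + 1 - n₀) • S₁ + (ℓ : ℤ) • S with hR
  -- `R` vanishes at `t₀`
  have hR0 : R = 0 := by
    apply RG_evHom_injective (Polynomial.evalRingHom (algebraMap (ZMod ℓ) kb t₀))
      (RG_eval_bc ℓ A t₀) (RG_eval_bc ℓ B t₀) (hmapΔ t₀ h₀) h2 hu
    rw [map_zero]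
    have e2 : (2 : ℤ) • RG_evHom (Polynomial.evalRingHom (algebraMap (ZMod ℓ) kb t₀))
        (RG_eval_bc ℓ A t₀) (RG_eval_bc ℓ B t₀) (hmapΔ t₀ h₀) h2 hu R = 0 := by
      rw [hR, key t₀ h₀]
      exact frobenius_equation ℓ hℓ5 (A.eval t₀) (B.eval t₀) h₀ _
    have e5 : (5 : ℤ) • RG_evHom (Polynomial.evalRingHom (algebraMap (ZMod ℓ) kb t₀))
        (RG_eval_bc ℓ A t₀) (RG_eval_bc ℓ B t₀) (hmapΔ t₀ h₀) h2 hu R = 0 := by
      rw [← map_zsmul]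
      have : (5 : ℤ) • R = 0 := by
        apply Subtype.ext
        rw [AddSubgroup.coe_zsmul]
        have h5R : 5 • (R : (RG_EK (RatFunc kb) (RG_bc ℓ kb A) (RG_bc ℓ kb B)).Point) = 0 := R.2
        rw [AddSubgroup.coe_zero, ← h5R]
        exact ofNat_zsmul _ 5
      rw [this, map_zero]
    generalize RG_evHom (Polynomial.evalRingHom (algebraMap (ZMod ℓ) kb t₀))
        (RG_eval_bc ℓ A t₀) (RG_eval_bc ℓ B t₀) (hmapΔ t₀ h₀) h2 hu R = z at e2 e5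
    have : z = (5 : ℤ) • z - (2 : ℤ) • ((2 : ℤ) • z) := by
      rw [smul_smul, ← sub_smul]
      norm_num
    rw [this, e2, e5, smul_zero, sub_zero]
  -- evaluate at `t₁`
  set P₁ := RG_evPt (Polynomial.evalRingHom (algebraMap (ZMod ℓ) kb t₁)) (RG_eval_bc ℓ A t₁)
    (RG_eval_bc ℓ B t₁) (hmapΔ t₁ h₁) h2 P with hP₁
  have hP₁0 : P₁ ≠ 0 := RG_evPt_ne_zero _ _ _ _ h2 (hint S) hP0
  have hP₁5 : 5 • P₁ = 0 := by
    have : RG_evHom (Polynomial.evalRingHom (algebraMap (ZMod ℓ) kb t₁)) (RG_eval_bc ℓ A t₁)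
        (RG_eval_bc ℓ B t₁) (hmapΔ t₁ h₁) h2 hu (5 • S) = 5 • P₁ := by
      rw [map_nsmul, RG_evHom_apply]
    rw [← this]
    have h0 : 5 • S = 0 := Subtype.ext hP5
    rw [h0, map_zero]
  have f0 := key t₁ h₁ ((ℓ : ℤ) + 1 - n₀)
  rw [← hR, hR0, map_zero, ← hP₁] at f0
  have f1 := frobenius_equation ℓ hℓ5 (A.eval t₁) (B.eval t₁) h₁ P₁
  rw [← hn₁] at f1
  set Q := frobPt ℓ (A.eval t₁) (B.eval t₁) P₁ with hQ
  have hQ0 : Q ≠ 0 := by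
    intro h
    apply hP₁0
    apply mapShort'_injective (frobHom ℓ) (algebraMap_zmod_pow ℓ (A.eval t₁))
      (algebraMap_zmod_pow ℓ (B.eval t₁))
    rw [map_zero]
    exact h
  have hQ5 : 5 • Q = 0 := by rw [hQ, ← map_nsmul, hP₁5, map_zero]
  have hfin : ((2 : ℤ) * (n₁ - n₀)) • Q = 0 := by
    have e : ((2 : ℤ) * (n₁ - n₀)) • Q
        = (2 : ℤ) • (frobPt ℓ (A.eval t₁) (B.eval t₁) Q - ((ℓ : ℤ) + 1 - n₁) • Q + (ℓ : ℤ) • P₁)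
          - (2 : ℤ) • (frobPt ℓ (A.eval t₁) (B.eval t₁) Q - ((ℓ : ℤ) + 1 - n₀) • Q
            + (ℓ : ℤ) • P₁) := by
      rw [← smul_sub, mul_smul]
      congr 1
      rw [sub_smul, sub_smul ((ℓ : ℤ) + 1) n₁, sub_smul ((ℓ : ℤ) + 1) n₀]
      abel
    rw [e, f1, ← f0, smul_zero, sub_zero]
  have h10 := RG_five_dvd_of_zsmul hQ0 hQ5 hfin
  have hcop : IsCoprime (5 : ℤ) 2 := by norm_num
  have := hcop.dvd_of_dvd_mul_left h10
  rw [← dvd_neg, neg_sub]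
  exact this

end Fermat.Agent.S52
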