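import Fermat.Agent.S52.RG.Int5

/-!
# S52 / RG (rigidity), part 2: evaluation of integral points

`O` a domain with fraction field `K`, `ev : O →+* κ` a homomorphism to a field with `2 ≠ 0`,
`E : y² = x³ + A x + B` over `O` with `Δ(ev A, ev B) ≠ 0`.  Evaluation of points with coordinates in
`O` is additive (as long as `P ± Q` have coordinates in `O`) and has trivial kernel.
-/

set_option autoImplicit false
set_option linter.unusedSectionVars false

namespace Fermat.Agent.S52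

open Polynomial WeierstrassCurve.Affine

lemma RG_some_congr {F : Type*} [CommRing F] {W : WeierstrassCurve.Affine F} {x y x' y' : F}
    (h : W.Nonsingular x y) (h' : W.Nonsingular x' y') (hx : x = x') (hy : y = y') :
    Point.some x y h = Point.some x' y' h' := by
  subst hx hy
  rfl

section field
variable {F : Type*} [Field F] [DecidableEq F] (a b : F)

lemma RG_rel_add {x₁ x₂ : F} (y₁ y₂ : F) (hx : x₁ ≠ x₂) :
    (x₁ - x₂) ^ 2 * ((short a b).addX x₁ x₂ ((short a b).slope x₁ x₂ y₁ y₂) + x₁ + x₂)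
      = (y₁ - y₂) ^ 2 ∧
    (x₁ - x₂) * ((short a b).addY x₁ x₂ y₁ ((short a b).slope x₁ x₂ y₁ y₂) + y₁)
      = -(y₁ - y₂) * ((short a b).addX x₁ x₂ ((short a b).slope x₁ x₂ y₁ y₂) - x₁) := by
  have hd : x₁ - x₂ ≠ 0 := sub_ne_zero.2 hx
  rw [slope_of_X_ne hx]
  simp only [addX, addY, negAddY, short_negY, short_a₁, short_a₂]
  constructor
  · field_simp
    ring
  · field_simp
    ring

lemma RG_add_of_rel {x₁ x₂ y₁ y₂ x₃ y₃ : F} (hx : x₁ ≠ x₂)
    (h1 : (x₁ - x₂) ^ 2 * (x₃ + x₁ + x₂) = (y₁ - y₂) ^ 2)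
    (h2 : (x₁ - x₂) * (y₃ + y₁) = -(y₁ - y₂) * (x₃ - x₁)) :
    (short a b).addX x₁ x₂ ((short a b).slope x₁ x₂ y₁ y₂) = x₃ ∧
    (short a b).addY x₁ x₂ y₁ ((short a b).slope x₁ x₂ y₁ y₂) = y₃ := by
  have hd : x₁ - x₂ ≠ 0 := sub_ne_zero.2 hx
  obtain ⟨e1, e2⟩ := RG_rel_add a b y₁ y₂ hx
  have hx3 : (short a b).addX x₁ x₂ ((short a b).slope x₁ x₂ y₁ y₂) = x₃ := by
    have : (x₁ - x₂) ^ 2 * ((short a b).addX x₁ x₂ ((short a b).slope x₁ x₂ y₁ y₂) - x₃) = 0 := by
      linear_combination e1 - h1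
    rcases mul_eq_zero.1 this with h | h
    · exact absurd h (pow_ne_zero 2 hd)
    · exact sub_eq_zero.1 h
  refine ⟨hx3, ?_⟩
  rw [hx3] at e2
  have : (x₁ - x₂) * ((short a b).addY x₁ x₂ y₁ ((short a b).slope x₁ x₂ y₁ y₂) - y₃) = 0 := by
    linear_combination e2 - h2
  rcases mul_eq_zero.1 this with h | h
  · exact absurd h hd
  · exact sub_eq_zero.1 h

lemma RG_rel_dbl {x₁ y₁ : F} (hy : y₁ ≠ (short a b).negY x₁ y₁) :
    (2 * y₁) ^ 2 * ((short a b).addX x₁ x₁ ((short a b).slope x₁ x₁ y₁ y₁) + 2 * x₁)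
      = (3 * x₁ ^ 2 + a) ^ 2 ∧
    (2 * y₁) * ((short a b).addY x₁ x₁ y₁ ((short a b).slope x₁ x₁ y₁ y₁) + y₁)
      = -(3 * x₁ ^ 2 + a) * ((short a b).addX x₁ x₁ ((short a b).slope x₁ x₁ y₁ y₁) - x₁) := by
  rw [slope_of_Y_ne rfl hy]
  rw [short_negY] at hy
  have hd : 2 * y₁ ≠ 0 := by
    intro h
    apply hy
    linear_combination h
  have e : y₁ - -y₁ = 2 * y₁ := by ring
  have h20 : (2 : F) ≠ 0 := left_ne_zero_of_mul hd
  have hy0 : y₁ ≠ 0 := right_ne_zero_of_mul hd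
  simp only [addX, addY, negAddY, short_negY, short_a₁, short_a₂, short_a₄, e]
  constructor
  · field_simp
    ring
  · field_simp
    ring

lemma RG_dbl_of_rel {x₁ y₁ x₃ y₃ : F} (hy : y₁ ≠ (short a b).negY x₁ y₁)
    (h1 : (2 * y₁) ^ 2 * (x₃ + 2 * x₁) = (3 * x₁ ^ 2 + a) ^ 2)
    (h2 : (2 * y₁) * (y₃ + y₁) = -(3 * x₁ ^ 2 + a) * (x₃ - x₁)) :
    (short a b).addX x₁ x₁ ((short a b).slope x₁ x₁ y₁ y₁) = x₃ ∧
    (short a b).addY x₁ x₁ y₁ ((short a b).slope x₁ x₁ y₁ y₁) = y₃ := by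
  obtain ⟨e1, e2⟩ := RG_rel_dbl a b hy
  rw [short_negY] at hy
  have hd : 2 * y₁ ≠ 0 := by
    intro h
    apply hy
    linear_combination h
  have hx3 : (short a b).addX x₁ x₁ ((short a b).slope x₁ x₁ y₁ y₁) = x₃ := by
    have : (2 * y₁) ^ 2 * ((short a b).addX x₁ x₁ ((short a b).slope x₁ x₁ y₁ y₁) - x₃) = 0 := by
      linear_combination e1 - h1
    rcases mul_eq_zero.1 this with h | h
    · exact absurd h (pow_ne_zero 2 hd)
    · exact sub_eq_zero.1 h
  refine ⟨hx3, ?_⟩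
  rw [hx3] at e2
  have : (2 * y₁) * ((short a b).addY x₁ x₁ y₁ ((short a b).slope x₁ x₁ y₁ y₁) - y₃) = 0 := by
    linear_combination e2 - h2
  rcases mul_eq_zero.1 this with h | h
  · exact absurd h hd
  · exact sub_eq_zero.1 h

/-- a common zero of `f` and `f'` forces `Δ = 0`. -/
lemma RG_disc_zero {α : F} (h1 : α ^ 3 + a * α + b = 0) (h2 : 3 * α ^ 2 + a = 0) :
    4 * a ^ 3 + 27 * b ^ 2 = 0 := by
  have ha : a = -3 * α ^ 2 := by linear_combination h2
  have hb : b = 2 * α ^ 3 := by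
    rw [ha] at h1
    linear_combination h1
  rw [ha, hb]
  ring

end field

section ev
variable {O K κ : Type*} [CommRing O] [IsDomain O] [Field K] [Algebra O K] [IsFractionRing O K]
  [Field κ]
variable (ev : O →+* κ) {A B : O} {a b : κ}

/-- notation: the generic fibre -/
abbrev RG_EK (K : Type*) [Field K] [Algebra O K] (A B : O) : WeierstrassCurve.Affine K :=
  short (algebraMap O K A) (algebraMap O K B)

lemma RG_inj : Function.Injective (algebraMap O K) := IsFractionRing.injective O K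

/-- points with coordinates in `O` -/
def RG_IsInt : (RG_EK K A B).Point → Prop
  | 0 => True
  | .some x y _ => ∃ p q : O, algebraMap O K p = x ∧ algebraMap O K q = y

lemma RG_eq_of_nonsingular {p q : O}
    (h : (RG_EK K A B).Nonsingular (algebraMap O K p) (algebraMap O K q)) :
    q ^ 2 = p ^ 3 + A * p + B := by
  apply RG_inj (O := O) (K := K)
  have := (short_equation _ _ _ _).1 h.1
  simpa only [map_pow, map_add, map_mul] using this

lemma RG_ev_eq (hA : ev A = a) (hB : ev B = b) {p q : O} (h : q ^ 2 = p ^ 3 + A * p + B) :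
    ev q ^ 2 = ev p ^ 3 + a * ev p + b := by
  have := congrArg ev h
  simpa only [map_pow, map_add, map_mul, hA, hB] using this

open Classical in
/-- evaluation of a point (junk value `0` if the coordinates are not in `O`) -/
noncomputable def RG_evPt (hA : ev A = a) (hB : ev B = b) (hΔ : 4 * a ^ 3 + 27 * b ^ 2 ≠ 0)
    (h2 : (2 : κ) ≠ 0) : (RG_EK K A B).Point → (short a b).Point
  | 0 => 0
  | .some x y h =>
    if hxy : ∃ pq : O × O, algebraMap O K pq.1 = x ∧ algebraMap O K pq.2 = y then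
      mkPt a b hΔ h2 (ev hxy.choose.1) (ev hxy.choose.2) (RG_ev_eq ev hA hB
        (RG_eq_of_nonsingular (K := K) (by
          rw [hxy.choose_spec.1, hxy.choose_spec.2]; exact h)))
    else 0

variable (hA : ev A = a) (hB : ev B = b) (hΔ : 4 * a ^ 3 + 27 * b ^ 2 ≠ 0) (h2 : (2 : κ) ≠ 0)

lemma RG_evPt_zero : RG_evPt (K := K) ev hA hB hΔ h2 0 = 0 := rfl

lemma RG_evPt_some {p q : O}
    (h : (RG_EK K A B).Nonsingular (algebraMap O K p) (algebraMap O K q)) :
    RG_evPt ev hA hB hΔ h2 (.some _ _ h) = mkPt a b hΔ h2 (ev p) (ev q)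
      (RG_ev_eq ev hA hB (RG_eq_of_nonsingular h)) := by
  have hxy : ∃ pq : O × O, algebraMap O K pq.1 = algebraMap O K p ∧
      algebraMap O K pq.2 = algebraMap O K q := ⟨(p, q), rfl, rfl⟩
  have e1 : hxy.choose.1 = p := RG_inj (K := K) hxy.choose_spec.1
  have e2 : hxy.choose.2 = q := RG_inj (K := K) hxy.choose_spec.2
  have e3 : RG_evPt ev hA hB hΔ h2 (.some _ _ h) = mkPt a b hΔ h2 (ev hxy.choose.1)
      (ev hxy.choose.2) (RG_ev_eq ev hA hB (RG_eq_of_nonsingular (K := K) (by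
          rw [hxy.choose_spec.1, hxy.choose_spec.2]; exact h))) := by
    unfold RG_evPt
    exact dif_pos hxy
  rw [e3]
  unfold mkPt
  exact RG_some_congr _ _ (by rw [e1]) (by rw [e2])

/-- the kernel of evaluation is trivial on integral points -/
lemma RG_evPt_ne_zero {P : (RG_EK K A B).Point} (hP : RG_IsInt P) (hP0 : P ≠ 0) :
    RG_evPt ev hA hB hΔ h2 P ≠ 0 := by
  rcases P with _ | ⟨x, y, h⟩
  · exact absurd rfl hP0
  · obtain ⟨p, q, rfl, rfl⟩ := hP
    rw [RG_evPt_some]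
    exact Point.some_ne_zero _

lemma RG_isInt_neg {P : (RG_EK K A B).Point} (hP : RG_IsInt P) : RG_IsInt (-P) := by
  rcases P with _ | ⟨x, y, h⟩
  · trivial
  · obtain ⟨p, q, rfl, rfl⟩ := hP
    rw [Point.neg_some]
    exact ⟨p, -q, rfl, by rw [short_negY, map_neg]⟩

lemma RG_evPt_neg {P : (RG_EK K A B).Point} (hP : RG_IsInt P) :
    RG_evPt ev hA hB hΔ h2 (-P) = -RG_evPt ev hA hB hΔ h2 P := by
  rcases P with _ | ⟨x, y, h⟩
  · rfl
  · obtain ⟨p, q, rfl, rfl⟩ := hP
    have h' : (RG_EK K A B).Nonsingular (algebraMap O K p) (algebraMap O K (-q)) := by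
      have := (nonsingular_neg ..).mpr h
      rwa [short_negY, ← map_neg] at this
    have e : -Point.some _ _ h = Point.some _ _ h' := by
      rw [Point.neg_some]
      exact RG_some_congr _ _ rfl (by rw [short_negY, map_neg])
    rw [e, RG_evPt_some, RG_evPt_some]
    unfold mkPt
    rw [Point.neg_some]
    exact RG_some_congr _ _ rfl (by rw [short_negY, map_neg])

lemma RG_evPt_of_eq {x y : K} (h : (RG_EK K A B).Nonsingular x y) {p q : O}
    (hp : algebraMap O K p = x) (hq : algebraMap O K q = y) :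
    ∃ h' : (short a b).Nonsingular (ev p) (ev q),
      RG_evPt ev hA hB hΔ h2 (.some x y h) = Point.some (ev p) (ev q) h' := by
  subst hp hq
  exact ⟨_, RG_evPt_some ev hA hB hΔ h2 h⟩

variable [DecidableEq K] [DecidableEq κ]

/-- **evaluation is additive** -/
theorem RG_evPt_add {P Q : (RG_EK K A B).Point} (hP : RG_IsInt P) (hQ : RG_IsInt Q)
    (hS : RG_IsInt (P + Q)) (hD : RG_IsInt (P - Q)) :
    RG_evPt ev hA hB hΔ h2 (P + Q)
      = RG_evPt ev hA hB hΔ h2 P + RG_evPt ev hA hB hΔ h2 Q := by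
  rcases P with _ | ⟨x₁, y₁, h₁⟩
  · change RG_evPt ev hA hB hΔ h2 (0 + Q) = RG_evPt ev hA hB hΔ h2 0 + _
    rw [zero_add, RG_evPt_zero, zero_add]
  rcases Q with _ | ⟨x₂, y₂, h₂⟩
  · change RG_evPt ev hA hB hΔ h2 (_ + 0) = _ + RG_evPt ev hA hB hΔ h2 0
    rw [add_zero, RG_evPt_zero, add_zero]
  obtain ⟨p₁, q₁, rfl, rfl⟩ := hP
  obtain ⟨p₂, q₂, rfl, rfl⟩ := hQ
  have E₁ := RG_eq_of_nonsingular h₁
  have E₂ := RG_eq_of_nonsingular h₂
  have e₁ := RG_ev_eq ev hA hB E₁
  have e₂ := RG_ev_eq ev hA hB E₂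
  rw [RG_evPt_some ev hA hB hΔ h2 h₁, RG_evPt_some ev hA hB hΔ h2 h₂]
  unfold mkPt
  by_cases hx : algebraMap O K p₁ = algebraMap O K p₂
  · have hp : p₁ = p₂ := RG_inj (K := K) hx
    subst hp
    by_cases hy : algebraMap O K q₁ = (RG_EK K A B).negY (algebraMap O K p₁) (algebraMap O K q₂)
    · rw [Point.add_of_Y_eq rfl hy, RG_evPt_zero]
      symm
      apply Point.add_of_Y_eq rfl
      rw [short_negY] at hy ⊢
      have : q₁ = -q₂ := RG_inj (K := K) (by rw [hy, map_neg])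
      rw [this, map_neg]
    · have hq : q₁ = q₂ := by
        have h0 : (q₁ - q₂) * (q₁ + q₂) = 0 := by linear_combination E₁ - E₂
        rcases mul_eq_zero.1 h0 with h | h
        · exact sub_eq_zero.1 h
        · exfalso
          apply hy
          rw [short_negY, ← map_neg]
          congr 1
          linear_combination h
      subst hq
      rw [Point.add_some (fun h => hy h.2)] at hS ⊢
      obtain ⟨p₃, q₃, hp₃, hq₃⟩ := hS
      obtain ⟨r1, r2⟩ := RG_rel_dbl (algebraMap O K A) (algebraMap O K B) hy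
      rw [← hp₃] at r1 r2
      rw [← hq₃] at r2
      have R1 : (2 * q₁) ^ 2 * (p₃ + 2 * p₁) = (3 * p₁ ^ 2 + A) ^ 2 := by
        apply RG_inj (K := K)
        simpa only [map_mul, map_pow, map_add, map_ofNat] using r1
      have R2 : (2 * q₁) * (q₃ + q₁) = -(3 * p₁ ^ 2 + A) * (p₃ - p₁) := by
        apply RG_inj (K := K)
        simpa only [map_mul, map_pow, map_add, map_ofNat, map_neg, map_sub] using r2
      have s1 : (2 * ev q₁) ^ 2 * (ev p₃ + 2 * ev p₁) = (3 * ev p₁ ^ 2 + a) ^ 2 := by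
        have := congrArg ev R1
        simpa only [map_mul, map_pow, map_add, map_ofNat, hA] using this
      have s2 : (2 * ev q₁) * (ev q₃ + ev q₁) = -(3 * ev p₁ ^ 2 + a) * (ev p₃ - ev p₁) := by
        have := congrArg ev R2
        simpa only [map_mul, map_pow, map_add, map_ofNat, map_neg, map_sub, hA] using this
      have hb : ev q₁ ≠ 0 := by
        intro h0
        rw [h0] at s1 e₁
        refine hΔ (RG_disc_zero a b (α := ev p₁) (by linear_combination -e₁) ?_)
        have : (3 * ev p₁ ^ 2 + a) ^ 2 = 0 := by linear_combination -s1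
        simpa using this
      have hy' : ev q₁ ≠ (short a b).negY (ev p₁) (ev q₁) := by
        rw [short_negY]
        intro h
        have : 2 * ev q₁ = 0 := by linear_combination h
        exact (mul_ne_zero h2 hb) this
      rw [Point.add_some (fun h => hy' h.2)]
      obtain ⟨h', e⟩ := RG_evPt_of_eq ev hA hB hΔ h2
        (nonsingular_add h₁ h₁ (fun h => hy h.2)) hp₃ hq₃
      rw [e]
      obtain ⟨t1, t2⟩ := RG_dbl_of_rel a b hy' s1 s2
      exact RG_some_congr _ _ t1.symm t2.symm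
  · -- distinct `x`-coordinates
    have hD' : RG_IsInt (Point.some _ _ h₁ + -Point.some _ _ h₂ : (RG_EK K A B).Point) := by
      rwa [← sub_eq_add_neg]
    rw [Point.neg_some, Point.add_some (fun h => hx h.1)] at hD'
    rw [Point.add_some (fun h => hx h.1)] at hS ⊢
    obtain ⟨p₃, q₃, hp₃, hq₃⟩ := hS
    obtain ⟨p₄, q₄, hp₄, -⟩ := hD'
    obtain ⟨r1, r2⟩ := RG_rel_add (algebraMap O K A) (algebraMap O K B) (algebraMap O K q₁)
      (algebraMap O K q₂) hx
    obtain ⟨r3, -⟩ := RG_rel_add (algebraMap O K A) (algebraMap O K B) (algebraMap O K q₁)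
      ((RG_EK K A B).negY (algebraMap O K p₂) (algebraMap O K q₂)) hx
    rw [← hp₃] at r1 r2
    rw [← hq₃] at r2
    rw [← hp₄, short_negY] at r3
    have R1 : (p₁ - p₂) ^ 2 * (p₃ + p₁ + p₂) = (q₁ - q₂) ^ 2 := by
      apply RG_inj (K := K)
      simpa only [map_mul, map_pow, map_add, map_sub] using r1
    have R2 : (p₁ - p₂) * (q₃ + q₁) = -(q₁ - q₂) * (p₃ - p₁) := by
      apply RG_inj (K := K)
      simpa only [map_mul, map_pow, map_add, map_neg, map_sub] using r2
    have R3 : (p₁ - p₂) ^ 2 * (p₄ + p₁ + p₂) = (q₁ + q₂) ^ 2 := by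
      apply RG_inj (K := K)
      simpa only [map_mul, map_pow, map_add, map_sub, sub_neg_eq_add] using r3
    have hd : p₁ - p₂ ≠ 0 := by
      intro h
      exact hx (by rw [sub_eq_zero.1 h])
    have R4 : (p₁ ^ 2 + p₁ * p₂ + p₂ ^ 2 + A) ^ 2
        = (p₁ - p₂) ^ 2 * ((p₃ + p₁ + p₂) * (p₄ + p₁ + p₂)) := by
      have h4 : (p₁ - p₂) ^ 2 * ((p₁ ^ 2 + p₁ * p₂ + p₂ ^ 2 + A) ^ 2
          - (p₁ - p₂) ^ 2 * ((p₃ + p₁ + p₂) * (p₄ + p₁ + p₂))) = 0 := by
        have h5 : (q₁ ^ 2 - q₂ ^ 2) = (p₁ - p₂) * (p₁ ^ 2 + p₁ * p₂ + p₂ ^ 2 + A) := by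
          rw [E₁, E₂]
          ring
        have h6 : (q₁ ^ 2 - q₂ ^ 2) ^ 2 = (q₁ - q₂) ^ 2 * (q₁ + q₂) ^ 2 := by ring
        rw [← R1, ← R3, h5] at h6
        linear_combination h6
      rcases mul_eq_zero.1 h4 with h | h
      · exact absurd h (pow_ne_zero 2 hd)
      · exact sub_eq_zero.1 h
    have s1 : (ev p₁ - ev p₂) ^ 2 * (ev p₃ + ev p₁ + ev p₂) = (ev q₁ - ev q₂) ^ 2 := by
      have := congrArg ev R1
      simpa only [map_mul, map_pow, map_add, map_sub] using this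
    have s2 : (ev p₁ - ev p₂) * (ev q₃ + ev q₁) = -(ev q₁ - ev q₂) * (ev p₃ - ev p₁) := by
      have := congrArg ev R2
      simpa only [map_mul, map_pow, map_add, map_neg, map_sub] using this
    have s3 : (ev p₁ - ev p₂) ^ 2 * (ev p₄ + ev p₁ + ev p₂) = (ev q₁ + ev q₂) ^ 2 := by
      have := congrArg ev R3
      simpa only [map_mul, map_pow, map_add, map_sub] using this
    have s4 : (ev p₁ ^ 2 + ev p₁ * ev p₂ + ev p₂ ^ 2 + a) ^ 2
        = (ev p₁ - ev p₂) ^ 2 * ((ev p₃ + ev p₁ + ev p₂) * (ev p₄ + ev p₁ + ev p₂)) := by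
      have := congrArg ev R4
      simpa only [map_mul, map_pow, map_add, map_sub, hA] using this
    have hx' : ev p₁ ≠ ev p₂ := by
      intro h
      rw [← h, sub_self] at s1 s3 s4
      have t1 : ev q₁ - ev q₂ = 0 := by
        have : (ev q₁ - ev q₂) ^ 2 = 0 := by linear_combination -s1
        simpa using this
      have t3 : ev q₁ + ev q₂ = 0 := by
        have : (ev q₁ + ev q₂) ^ 2 = 0 := by linear_combination -s3
        simpa using this
      have t0 : ev q₁ = 0 := by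
        have : 2 * ev q₁ = 0 := by linear_combination t1 + t3
        exact (mul_eq_zero.1 this).resolve_left h2
      have t4 : 3 * ev p₁ ^ 2 + a = 0 := by
        have : (3 * ev p₁ ^ 2 + a) ^ 2 = 0 := by linear_combination s4
        simpa using this
      rw [t0] at e₁
      exact hΔ (RG_disc_zero a b (α := ev p₁) (by linear_combination -e₁) t4)
    rw [Point.add_some (fun h => hx' h.1)]
    obtain ⟨h', e⟩ := RG_evPt_of_eq ev hA hB hΔ h2
      (nonsingular_add h₁ h₂ (fun h => hx h.1)) hp₃ hq₃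
    rw [e]
    obtain ⟨t1, t2⟩ := RG_add_of_rel a b hx' s1 s2
    exact RG_some_congr _ _ t1.symm t2.symm

end ev

end Fermat.Agent.S52
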