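import Fermat.Agent.S52.RG.Eval

/-!
# S52 / RG (rigidity), part 3: the injective evaluation homomorphism on `5`-torsion sections
-/

set_option autoImplicit false
set_option linter.unusedSectionVars false

namespace Fermat.Agent.S52

open Polynomial WeierstrassCurve.Affine

variable {O K κ : Type*} [CommRing O] [IsDomain O] [IsIntegrallyClosed O] [Field K] [Algebra O K]
  [IsFractionRing O K] [Field κ] [DecidableEq K] [DecidableEq κ]
variable (ev : O →+* κ) {A B : O} {a b : κ}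
variable (hA : ev A = a) (hB : ev B = b) (hΔ : 4 * a ^ 3 + 27 * b ^ 2 ≠ 0) (h2 : (2 : κ) ≠ 0)

/-- the group of `5`-torsion sections -/
def RG_T5 (K : Type*) [Field K] [Algebra O K] [DecidableEq K] (A B : O) :
    AddSubgroup (RG_EK K A B).Point :=
  (nsmulAddMonoidHom 5 : (RG_EK K A B).Point →+ (RG_EK K A B).Point).ker

lemma RG_mem_T5 {P : (RG_EK K A B).Point} : P ∈ RG_T5 K A B ↔ 5 • P = 0 := Iff.rfl

include ev hA hB hΔ h2 in
lemma RG_Δ_ne_zero : (RG_EK K A B).Δ ≠ 0 := by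
  rw [short_Δ]
  intro h
  have h1 : -16 * (4 * A ^ 3 + 27 * B ^ 2) = 0 := by
    apply RG_inj (O := O) (K := K)
    simpa only [map_mul, map_neg, map_ofNat, map_add, map_pow, map_zero] using h
  have h3 : -16 * (4 * a ^ 3 + 27 * b ^ 2) = 0 := by
    have := congrArg ev h1
    simpa only [map_mul, map_neg, map_ofNat, map_add, map_pow, map_zero, hA, hB] using this
  have h16 : (-16 : κ) ≠ 0 := by
    have : (-16 : κ) = -(2 ^ 4) := by norm_num
    rw [this]
    exact neg_ne_zero.2 (pow_ne_zero 4 h2)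
  exact (mul_ne_zero h16 hΔ) h3

include ev hA hB hΔ h2 in
lemma RG_isInt_of_mem_T5 {u : O} (hu : u * 5 = 1) {P : (RG_EK K A B).Point}
    (hP : P ∈ RG_T5 K A B) : RG_IsInt P := by
  rcases P with _ | ⟨x, y, h⟩
  · trivial
  · exact RG_integral_of_five hu (RG_Δ_ne_zero ev hA hB hΔ h2) h hP

/-- **evaluation of `5`-torsion sections** -/
noncomputable def RG_evHom {u : O} (hu : u * 5 = 1) : RG_T5 K A B →+ (short a b).Point :=
  AddMonoidHom.mk' (fun P => RG_evPt ev hA hB hΔ h2 (P : (RG_EK K A B).Point)) fun P Q =>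
    RG_evPt_add ev hA hB hΔ h2 (RG_isInt_of_mem_T5 ev hA hB hΔ h2 hu P.2)
      (RG_isInt_of_mem_T5 ev hA hB hΔ h2 hu Q.2) (RG_isInt_of_mem_T5 ev hA hB hΔ h2 hu (P + Q).2)
      (RG_isInt_of_mem_T5 ev hA hB hΔ h2 hu (P - Q).2)

lemma RG_evHom_apply {u : O} (hu : u * 5 = 1) (P : RG_T5 K A B) :
    RG_evHom ev hA hB hΔ h2 hu P = RG_evPt ev hA hB hΔ h2 (P : (RG_EK K A B).Point) := rfl

/-- **rigidity**: a `5`-torsion section vanishing at one good point vanishes identically -/
theorem RG_evHom_injective {u : O} (hu : u * 5 = 1) :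
    Function.Injective (RG_evHom (K := K) ev hA hB hΔ h2 hu) := by
  rw [injective_iff_map_eq_zero]
  intro P hP
  by_contra hP0
  exact RG_evPt_ne_zero ev hA hB hΔ h2 (RG_isInt_of_mem_T5 ev hA hB hΔ h2 hu P.2)
    (fun h => hP0 (Subtype.ext h)) hP

end Fermat.Agent.S52
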