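import Fermat.Agent.S52.Short
import Fermat.Agent.S51.Torsion

/-!
# S52 / RG (rigidity), part 1: `5`-torsion points have integral coordinates

`O` an integrally closed domain with fraction field `K`, `5 ∈ Oˣ`, `E : y² = x³ + A x + B`, `A B : O`.
-/

set_option autoImplicit false
set_option linter.unusedSectionVars false

namespace Fermat.Agent.S52

open Polynomial WeierstrassCurve.Affine

section
variable {K : Type*} [Field K]

/-- the `5`-division polynomial of `y² = x³ + a x + b`. -/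
lemma RG_p5_short (a b x : K) : Fermat.Agent.S51.p5 (short a b) x =
    5 * x ^ 12 + 62 * a * x ^ 10 + 380 * b * x ^ 9 - 105 * a ^ 2 * x ^ 8 + 240 * a * b * x ^ 7
    + (-300 * a ^ 3 - 240 * b ^ 2) * x ^ 6 - 696 * a ^ 2 * b * x ^ 5
    + (-125 * a ^ 4 - 1920 * a * b ^ 2) * x ^ 4 + (-80 * a ^ 3 * b - 1600 * b ^ 3) * x ^ 3
    + (-50 * a ^ 5 - 240 * a ^ 2 * b ^ 2) * x ^ 2 + (-100 * a ^ 4 * b - 640 * a * b ^ 3) * x
    + (a ^ 6 - 32 * a ^ 3 * b ^ 2 - 256 * b ^ 4) := by
  simp only [Fermat.Agent.S51.p5, Fermat.Agent.S51.g4, Fermat.Agent.S51.ff, Fermat.Agent.S51.p3,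
    short_b₂, short_b₄, short_b₆, short_b₈]
  ring

end

section
variable {O K : Type*} [CommRing O] [IsDomain O] [IsIntegrallyClosed O] [Field K] [Algebra O K]
  [IsFractionRing O K]

/-- the lower terms of `ψ₅ / 5`. -/
noncomputable def RG_low (u A B : O) : O[X] :=
  C u * (C (62 * A) * X ^ 10 + C (380 * B) * X ^ 9 - C (105 * A ^ 2) * X ^ 8
    + C (240 * A * B) * X ^ 7
    + C (-300 * A ^ 3 - 240 * B ^ 2) * X ^ 6 - C (696 * A ^ 2 * B) * X ^ 5
    + C (-125 * A ^ 4 - 1920 * A * B ^ 2) * X ^ 4 + C (-80 * A ^ 3 * B - 1600 * B ^ 3) * X ^ 3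
    + C (-50 * A ^ 5 - 240 * A ^ 2 * B ^ 2) * X ^ 2 + C (-100 * A ^ 4 * B - 640 * A * B ^ 3) * X
    + C (A ^ 6 - 32 * A ^ 3 * B ^ 2 - 256 * B ^ 4))

lemma RG_low_degree (u A B : O) : (RG_low u A B).degree < (12 : ℕ) := by
  have : (RG_low u A B).natDegree ≤ 10 := by
    unfold RG_low
    compute_degree
  exact lt_of_le_of_lt degree_le_natDegree (by exact_mod_cast (by omega : (RG_low u A B).natDegree < 12))

lemma RG_isIntegral_of_p5 {u A B : O} (hu : u * 5 = 1) {x : K}
    (h : Fermat.Agent.S51.p5 (short (algebraMap O K A) (algebraMap O K B)) x = 0) :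
    IsIntegral O x := by
  refine ⟨X ^ 12 + RG_low u A B, monic_X_pow_add (RG_low_degree u A B), ?_⟩
  rw [RG_p5_short] at h
  have hu' : algebraMap O K u * 5 = 1 := by
    have := congrArg (algebraMap O K) hu
    rwa [map_mul, map_ofNat, map_one] at this
  rw [← aeval_def]
  simp only [RG_low, map_add, map_sub, map_mul, map_pow, aeval_X, aeval_C, map_neg, map_ofNat]
  linear_combination (algebraMap O K u) * h - x ^ 12 * hu'

lemma RG_exists_of_isIntegral {x : K} (h : IsIntegral O x) : ∃ a : O, algebraMap O K a = x :=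
  IsIntegrallyClosed.isIntegral_iff.1 h

variable [DecidableEq K]

/-- `5`-torsion points are integral. -/
theorem RG_integral_of_five {u A B : O} (hu : u * 5 = 1)
    (hΔ : (short (algebraMap O K A) (algebraMap O K B)).Δ ≠ 0) {x y : K}
    (h : (short (algebraMap O K A) (algebraMap O K B)).Nonsingular x y)
    (h5 : 5 • (Point.some x y h) = 0) :
    ∃ a b : O, algebraMap O K a = x ∧ algebraMap O K b = y := by
  have hp5 := Fermat.Agent.S51.p5_eq_zero_of_five hΔ (Point.some_ne_zero h) h5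
  rw [Fermat.Agent.S51.xc_some] at hp5
  obtain ⟨a, ha⟩ := RG_exists_of_isIntegral (O := O) (RG_isIntegral_of_p5 hu hp5)
  have hy : IsIntegral O y := by
    refine IsIntegral.of_pow (n := 2) (by norm_num) ?_
    rw [(short_equation _ _ _ _).1 h.1, ← ha, ← map_pow, ← map_mul, ← map_add, ← map_add]
    exact isIntegral_algebraMap
  obtain ⟨b, hb⟩ := RG_exists_of_isIntegral (O := O) hy
  exact ⟨a, b, ha, hb⟩

end

end Fermat.Agent.S52
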